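import Fermat.Agent.S18.Integ.Top
import Fermat.Agent.S18.Mod.Defs
import Fermat.Agent.S18.H5.T23
import Fermat.Agent.S18.H568.D2
import Fermat.Agent.S18.H694.PrimeRed
import Fermat.Agent.S18.H333.Coord
import Fermat.Agent.S18.H965.Glue
import Fermat.Prelude.Def_EllipticCurve_FrobeniusTrace

/-!
# S18 / assembly (helper984, deputy): the frozen statement from the TWO remaining nodes

`s18_of_mod_alg` : frozen S18 from `node_mod` and `node_alg` at the single level
`M = levelM N ℓ` (interfaces v4 FINAL), with all closed nodes plugged in from main: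

* prime reduction := `H694.s18_of_prime_case`
* top layer       := `Integ.s18_of_coreStatement`
* node_constFk    := `H5.t3`
* node_d2         := `H568.node_d2`
* node_coord      := `H333.node_coord`
* node_glue       := `H965.node_glue`
-/

set_option autoImplicit false

noncomputable section

open ModularCurve AlgebraicCurve

namespace Fermat.Agent.S18.H984

open Fermat.Agent.S18

/-- The level at which good reduction is proved (same as `Integ.levelM` of the skeleton). -/
def levelM (N ℓ : ℕ) : ℕ := if ℓ = 3 then Nat.lcm N 2 else if ℓ = 2 then Nat.lcm N 3 else N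

theorem levelM_ne_zero (N ℓ : ℕ) [NeZero N] : levelM N ℓ ≠ 0 := by
  unfold levelM
  split_ifs <;> simp [NeZero.ne N]

theorem not_dvd_levelM (N : ℕ) {ℓ : ℕ} [Fact ℓ.Prime] (hℓN : ¬ ℓ ∣ N) : ¬ ℓ ∣ levelM N ℓ := by
  have hp : ℓ.Prime := Fact.out
  unfold levelM
  split_ifs with h3 h2
  · subst h3
    intro h
    have := (Nat.Prime.dvd_mul (by norm_num : Nat.Prime 3)).mp (h.trans (Nat.lcm_dvd_mul N 2))
    rcases this with h | h
    · exact hℓN h
    · omega
  · subst h2
    intro h
    have := (Nat.Prime.dvd_mul (by norm_num : Nat.Prime 2)).mp (h.trans (Nat.lcm_dvd_mul N 3))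
    rcases this with h | h
    · exact hℓN h
    · omega
  · exact hℓN

/-- **S18 from the two remaining nodes** (`node_mod`, `node_alg` at the level `levelM N ℓ`). -/
theorem s18_of_mod_alg (N : ℕ) [NeZero N] {ℓ : ℕ} [Fact ℓ.Prime] (hℓN : ¬ ℓ ∣ N)
    (A : ValuationSubring Qb) (hA : A.LiesOverPrime ℓ)
    (h : ModularCurve.ReductionInputsModL A N) (m : ℕ) (hm : ¬ ℓ ∣ m)
    (node_mod : Mod.GoodModelStatement (levelM N ℓ) ℓ A)
    (node_alg : Mod.AlgStatement (levelM N ℓ))
    (z : ModularCurve.JZero N) (hmz : m • z = 0)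
    (hz : ModularCurve.reductionModL A N z = 0) : z = 0 := by
  haveI : NeZero (levelM N ℓ) := ⟨levelM_ne_zero N ℓ⟩
  have hℓM := not_dvd_levelM N hℓN
  have h3 : ℓ = 3 → 2 ∣ levelM N ℓ := fun h => by
    unfold levelM; rw [if_pos h]; exact Nat.dvd_lcm_right N 2
  have h2 : ℓ = 2 → 3 ∣ levelM N ℓ := fun h => by
    unfold levelM
    rw [if_neg (by omega), if_pos h]; exact Nat.dvd_lcm_right N 3
  refine H694.s18_of_prime_case N A (fun p hp hℓp z hpz hz => ?_) m hm z hmz hz
  have hcoreM : CoreStatement (levelM N ℓ) A p :=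
    H965.node_glue (levelM N ℓ) hℓM A hA p hp hℓp (H333.node_coord (levelM N ℓ) hℓM h3 h2)
      node_mod node_alg
  exact Integ.s18_of_coreStatement h p hℓp
    (fun f hf hord => H5.t3 N ℓ Fact.out hℓN A hA f hf hord)
    (H568.node_d2 N hℓN A hA p hℓp hcoreM) z hpz hz

end Fermat.Agent.S18.H984
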